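import Fermat.Agent.ModPoly.BaseCase
import Fermat.Agent.MzCusp.DeltaQuot
import Fermat.Agent.BadRed.FrobLaurent
import Fermat.Agent.HeckeRed.FrobPow

/-!
# `Δ(q)/Δ(q^p)` is a polynomial in `j` of degree `p - 1` in characteristic `p`
-/

set_option autoImplicit false

noncomputable section

open HahnSeries ModularCurve

namespace Fermat.Agent.NodeCount

open Fermat.Agent.ModPoly Fermat.Agent.MzCusp

variable (κ : Type*) [Field κ] (p : ℕ) [hp : Fact p.Prime] [CharP κ p]

theorem deltaL_eq_dL (R : Type*) [CommRing R] : deltaL R = dL R := rfl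

theorem deltaInvL_eq_dInv (R : Type*) [CommRing R] : deltaInvL R = dInv R := rfl

theorem aT_none_eq_zero : aT κ p 1 none = 0 := by
  rw [aT, wtL]
  have h : ((p : LaurentSeries κ)) = 0 := by
    have : ((p : κ)) = 0 := CharP.cast_eq_zero κ p
    rw [← map_natCast (algebraMap κ (LaurentSeries κ)), this, map_zero]
  rw [h, zero_pow (by norm_num), zero_mul, zero_mul]

omit [CharP κ p] in
theorem aT_some_eq (b : Fin p) : aT κ p 1 (some b) = uL κ p := by
  rw [aT, wtL, one_mul, conjL, one_pow, twist_one, uL]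
  rfl

omit [CharP κ p] in
theorem uL_eq_coeffMap : uL κ p = coeffMap (Int.castRingHom κ) (uL ℤ p) :=
  (coeffMap_uL p (Int.castRingHom κ)).symm

/-- The reduction of `Δ(q)/Δ(q^p)` is a polynomial in `j`. -/
theorem exists_poly_uL : ∃ G : Polynomial κ, uL κ p = Polynomial.aeval (jqModC κ) G := by
  have hv : (Polynomial.cyclotomic p κ).IsRoot ((1 : κˣ) : κ) := by
    rw [Polynomial.IsRoot, Units.val_one, Polynomial.eval_one_cyclotomic_prime,
      CharP.cast_eq_zero]
  have h := deltaPoly_map p hv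
  rw [Fintype.prod_option, aT_none_eq_zero, Polynomial.C_0, sub_zero] at h
  simp only [aT_some_eq] at h
  rw [Finset.prod_const, Finset.card_univ, Fintype.card_fin] at h
  have hchar : CharP (LaurentSeries κ) p :=
    charP_of_injective_algebraMap (algebraMap κ (LaurentSeries κ)).injective p
  have hcp : CharP (Polynomial (LaurentSeries κ)) p := inferInstance
  rw [sub_pow_char, ← Polynomial.C_pow] at h
  have h1 := congrArg (fun P => Polynomial.coeff P 1) h
  rw [Polynomial.coeff_map, show (1 : ℕ) = 0 + 1 from rfl, Polynomial.coeff_X_mul,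
    Polynomial.coeff_sub, Polynomial.coeff_C_zero, Polynomial.coeff_X_pow,
    if_neg hp.out.ne_zero.symm, zero_sub] at h1
  rw [← BadRed.qExpand_eq_pow κ p (uL ℤ p) (uL_eq_coeffMap κ p)] at h1
  have h2 : evV κ p ((deltaPoly p).coeff (0 + 1)) = qExpand κ p (evJ κ ((deltaPoly p).coeff (0 + 1))) :=
    rfl
  rw [h2, ← map_neg] at h1
  have h3 := HeckeRed.qExpand_injective' p h1
  refine ⟨-(((deltaPoly p).coeff (0 + 1)).map (Int.castRingHom κ)), ?_⟩
  rw [map_neg, ← evJ_eq_aeval_map, h3, neg_neg]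

theorem exists_poly_uL' : ∃ G : Polynomial κ, G.natDegree = p - 1 ∧
    uL κ p = Polynomial.aeval (jqModC κ) G := by
  obtain ⟨G, hG⟩ := exists_poly_uL κ p
  refine ⟨G, ?_, hG⟩
  have h0 : G ≠ 0 := by
    rintro rfl
    rw [map_zero] at hG
    exact uL_ne_zero p κ hG
  have h1 := order_uL p κ
  rw [hG, ModPoly.order_aeval_jqModC h0] at h1
  have := hp.out.one_lt
  omega

end Fermat.Agent.NodeCount
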