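import Fermat.Agent.NodeCount.Numerics
import Fermat.Agent.NodeCount.Hasse
import Fermat.Agent.Cusps.CharZero
import Fermat.Agent.Cusps.OrdVal
import Fermat.Agent.TorsInj.Nonspecial
import Fermat.Agent.ModDeg.DegreeClosed
import Fermat.Agent.Deuring.Basic

/-!
# The number of nodes of `X₀(N r)` at `r`, and the order of `Δ(q)/Δ(q^r)` at the cusps
-/

set_option autoImplicit false

noncomputable section

open AlgebraicCurve Module IntermediateField ModularCurve HahnSeries

namespace Fermat.Agent.NodeCount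

open Fermat.Agent.FunField Fermat.Agent.FunField.PlaceLemmas

section RR

open Fermat.Agent.Deuring

variable {K F : Type*} [Field K] [Field F] [Algebra K F]

theorem exists_degree_ge [IsFF K F] (c : ℤ) : ∃ D : Divisor K F, c ≤ Divisor.degree D := by
  obtain ⟨v⟩ := FunField.exists_place (K := K) (F := F)
  refine ⟨c.toNat • Finsupp.single v 1, ?_⟩
  have h1 : (1 : ℤ) ≤ v.deg := by
    have := FunField.deg_pos v
    omega
  rw [map_nsmul, Divisor.degree_single, one_mul, nsmul_eq_mul]
  have h2 := Int.self_le_toNat c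
  have h3 : (0 : ℤ) ≤ (c.toNat : ℤ) := Int.natCast_nonneg _
  nlinarith

/-- the genus is unique -/
theorem rrLarge_unique [IsFF K F] {g g' : ℤ} (h : RRLarge K F g) (h' : RRLarge K F g') :
    g = g' := by
  obtain ⟨c, hc⟩ := h
  obtain ⟨c', hc'⟩ := h'
  obtain ⟨D, hD⟩ := exists_degree_ge (K := K) (F := F) (max c c')
  have h1 := (hc D ((le_max_left _ _).trans hD)).2
  have h2 := (hc' D ((le_max_right _ _).trans hD)).2
  omega

theorem eq_genusFF [IsFF K F] [IsAlgClosed K] {g : ℤ} (h : RRLarge K F g) : g = genusFF K F :=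
  rrLarge_unique h TorsInj.rrLarge_genusFF

end RR

section Numerics

variable {L : Type*} [Field L] [Algebra ℚ L] [IsAlgClosed L] (ι : L →+* ℂ)
  {κ : Type*} [Field κ] [IsAlgClosed κ] {N r : ℕ} [NeZero N] [hr : Fact r.Prime]

theorem degree_poleDiv_jF (hN : (N : κ) ≠ 0) {P : Divisor κ (modularFunctionFieldFullC κ N)}
    (hP : ∀ v, P v = max 0 (-(v.ord (HeckeRed.jF κ N)))) :
    Divisor.degree P = dedekindPsi N := by
  have h1 : P = poleDiv (HeckeRed.jF κ N) := by
    ext v
    rw [hP, poleDiv_apply, max_comm]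
  rw [h1, degree_poleDiv (HeckeRed.transcendental_jF κ N)]
  congr 1
  have h2 : finrank κ⟮HeckeRed.jF κ N⟯ (modularFunctionFieldFullC κ N) =
      relfinrank κ⟮((HeckeRed.jF κ N : modularFunctionFieldFullC κ N) : LaurentSeries κ)⟯
        (modularFunctionFieldFullC κ N) :=
    Cusps.finrank_adjoin_eq_relfinrank _ _
  rw [h2]
  exact ModDeg.relfinrank_full_of_isAlgClosed N hN

include ι in
/-- (M2a) the number of nodes -/
theorem degree_eq_nodes [CharP κ r] (hrN : ¬ r ∣ N) (hE : NoEll N r) {g g₁ : ℤ}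
    (hRR : Deuring.RRLarge L (modularFunctionFieldFullC L (N * r)) g)
    (hRR₁ : Deuring.RRLarge κ (modularFunctionFieldFullC κ N) g₁)
    (hgen : genusFF κ (modularFunctionFieldFullC κ N) = genusFF L (modularFunctionFieldFullC L N))
    {P : Divisor κ (modularFunctionFieldFullC κ N)}
    (hP : ∀ v, P v = max 0 (-(v.ord (HeckeRed.jF κ N)))) :
    ((r : ℤ) - 1) * Divisor.degree P = 12 * (g + 1 - 2 * g₁) := by
  have : NeZero (N * r) := ⟨mul_ne_zero (NeZero.ne N) hr.out.ne_zero⟩
  have hNκ : (N : κ) ≠ 0 := by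
    rw [Ne, CharP.cast_eq_zero_iff κ r]
    exact hrN
  have h1 : g = genusFF L (modularFunctionFieldFullC L (N * r)) := eq_genusFF hRR
  have h2 : g₁ = genusFF L (modularFunctionFieldFullC L N) := by
    rw [← hgen]; exact eq_genusFF hRR₁
  rw [degree_poleDiv_jF hNκ hP]
  refine (twelve_mul_nodes (NeZero.ne N) hr.out hrN hE ?_ ?_).symm
  · rw [h1, ← Cusps.genusFF_full L ι (N * r)]
    push_cast
    rfl
  · rw [h2, ← Cusps.genusFF_full L ι N]
    push_cast
    rfl

end Numerics

section Order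

variable {K F : Type*} [Field K] [Field F] [Algebra K F]

theorem ord_monomial (v : Place K F) {x : F} {a : K} (ha : a ≠ 0) (n : ℕ) :
    v.ord (a • x ^ n) = n * v.ord x := by
  rw [ord_smul_of_ne_zero v ha, ord_pow]

/-- order of a polynomial in `x` at a pole of `x` -/
theorem ord_aeval_of_neg (v : Place K F) {x : F} (hx : v.ord x < 0) {G : Polynomial K}
    (hG : G ≠ 0) : Polynomial.aeval x G ≠ 0 ∧
      v.ord (Polynomial.aeval x G) = G.natDegree * v.ord x := by
  have hx0 : x ≠ 0 := by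
    rintro rfl
    simp at hx
  induction hn : G.natDegree using Nat.strong_induction_on generalizing G with
  | _ n ih =>
    subst hn
    have hl : G.leadingCoeff ≠ 0 := Polynomial.leadingCoeff_ne_zero.mpr hG
    have h1 : Polynomial.aeval x G = G.leadingCoeff • x ^ G.natDegree +
        Polynomial.aeval x G.eraseLead := by
      conv_lhs => rw [← G.eraseLead_add_monomial_natDegree_leadingCoeff]
      rw [map_add, Polynomial.aeval_monomial, Algebra.smul_def, add_comm]
    have h2 : G.leadingCoeff • x ^ G.natDegree ≠ 0 :=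
      smul_ne_zero hl (pow_ne_zero _ hx0)
    have h3 := ord_monomial v (x := x) hl G.natDegree
    rcases eq_or_ne G.eraseLead 0 with h0 | h0
    · rw [h1, h0, map_zero, add_zero]
      exact ⟨h2, h3⟩
    · have hlt : G.eraseLead.natDegree < G.natDegree := by
        refine lt_of_le_of_ne (G.eraseLead_natDegree_le_aux) ?_
        intro he
        apply h0
        rw [← Polynomial.leadingCoeff_eq_zero, Polynomial.leadingCoeff, he]
        exact Polynomial.eraseLead_coeff_natDegree
      obtain ⟨h4, h5⟩ := ih _ hlt h0 rfl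
      have h6 : v.ord (G.leadingCoeff • x ^ G.natDegree) < v.ord (Polynomial.aeval x G.eraseLead) := by
        rw [h3, h5]
        have : ((G.eraseLead.natDegree : ℕ) : ℤ) < G.natDegree := by exact_mod_cast hlt
        nlinarith
      rw [h1]
      exact ⟨add_ne_zero_of_ord_lt v h2 h6, by rw [ord_add_eq_of_lt v h2 (Or.inr h6), h3]⟩

theorem ord_aeval_of_nonneg (v : Place K F) {x : F} (hx : 0 ≤ v.ord x) (G : Polynomial K) :
    0 ≤ v.ord (Polynomial.aeval x G) := by
  rcases eq_or_ne (Polynomial.aeval x G) 0 with h0 | h0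
  · rw [h0]; simp
  rw [← mem_iff_ord_nonneg v h0]
  have hx' : x ∈ v.toValuationSubring := by
    rcases eq_or_ne x 0 with rfl | hx0
    · exact zero_mem _
    · exact (mem_iff_ord_nonneg v hx0).mpr hx
  rw [Polynomial.aeval_eq_sum_range]
  refine sum_mem fun i _ => ?_
  rw [Algebra.smul_def]
  exact mul_mem (v.algebraMap_mem' _) (pow_mem hx' i)

end Order

section Hasse

variable {κ : Type*} [Field κ] {N r : ℕ} [hr : Fact r.Prime] [CharP κ r]

/-- (M2b) the order of `Δ(q)/Δ(q^r)` -/
theorem ord_uL {y : modularFunctionFieldFullC κ N} (hy : (y : LaurentSeries κ) = MzCusp.uL κ r)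
    (v : Place κ (modularFunctionFieldFullC κ N)) :
    (v.ord (HeckeRed.jF κ N) < 0 → v.ord y = (r - 1) * v.ord (HeckeRed.jF κ N)) ∧
    (0 ≤ v.ord (HeckeRed.jF κ N) → 0 ≤ v.ord y) := by
  obtain ⟨G, hdeg, hG⟩ := exists_poly_uL' κ r
  have h1 : y = Polynomial.aeval (HeckeRed.jF κ N) G := by
    apply (modularFunctionFieldFullC κ N).val.injective
    have h2 := Polynomial.aeval_algHom_apply (modularFunctionFieldFullC κ N).val
      (HeckeRed.jF κ N) G
    exact (hy.trans hG).trans h2
  have hG0 : G ≠ 0 := by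
    rintro rfl
    rw [map_zero] at hG
    exact MzCusp.uL_ne_zero r κ hG
  refine ⟨fun h => ?_, fun h => ?_⟩
  · rw [h1, (ord_aeval_of_neg v h hG0).2, hdeg, Nat.cast_sub hr.out.one_lt.le]
    rfl
  · rw [h1]
    exact ord_aeval_of_nonneg v h G

end Hasse

section Final

variable {L : Type*} [Field L] [Algebra ℚ L] [IsAlgClosed L] (ι : L →+* ℂ)
  {κ : Type*} [Field κ] [IsAlgClosed κ] {N r : ℕ} [NeZero N] [hr : Fact r.Prime]

include ι in
/-- the hypothesis `hdeg` of `TwoVal.RatDat.exists_KL` -/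
theorem exists_hdeg [CharP κ r] (hrN : ¬ r ∣ N) (hE : NoEll N r) {g g₁ c : ℤ}
    (hRR : Deuring.RRLarge L (modularFunctionFieldFullC L (N * r)) g)
    (hRR₁ : Deuring.RRLarge κ (modularFunctionFieldFullC κ N) g₁)
    (hgen : genusFF κ (modularFunctionFieldFullC κ N) = genusFF L (modularFunctionFieldFullC L N))
    (hc : c = g + 1 - 2 * g₁)
    {Eb : Divisor κ (modularFunctionFieldFullC κ N)}
    (hEb : ∀ v, Eb v ≠ 0 ↔ v.ord (HeckeRed.jF κ N) < 0)
    {y : modularFunctionFieldFullC κ N} (hy : (y : LaurentSeries κ) = MzCusp.uL κ r) :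
    ∃ P : Divisor κ (modularFunctionFieldFullC κ N), (∀ x, Eb x ≠ 0 → x.ord y = -P x) ∧
      (∀ x, Eb x = 0 → P x = 0) ∧ Divisor.degree P = 12 * c := by
  set Q : Divisor κ (modularFunctionFieldFullC κ N) := poleDiv (HeckeRed.jF κ N) with hQ
  have hP : ∀ v, Q v = max 0 (-(v.ord (HeckeRed.jF κ N))) := fun v => by
    rw [hQ, poleDiv_apply, max_comm]
  have h1 := degree_eq_nodes ι hrN hE hRR hRR₁ hgen hP
  refine ⟨(r - 1) • Q, fun x hx => ?_, fun x hx => ?_, ?_⟩
  · have h2 := (hEb x).mp hx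
    rw [(ord_uL hy x).1 h2, Finsupp.smul_apply, hP, max_eq_right (by omega), nsmul_eq_mul,
      Nat.cast_sub hr.out.one_lt.le]
    push_cast
    ring
  · have h2 : ¬ x.ord (HeckeRed.jF κ N) < 0 := fun h => (hEb x).mpr h hx
    rw [Finsupp.smul_apply, hP, max_eq_left (by omega), smul_zero]
  · rw [map_nsmul, nsmul_eq_mul, Nat.cast_sub hr.out.one_lt.le, Nat.cast_one, h1, hc]

end Final

end Fermat.Agent.NodeCount
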