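import Mathlib
import Fermat.Prelude.Def_ModularCurve_GenusNumerics
import Fermat.Agent.ModDeg.Psi

/-!
# Numerics of the genus formula for `X₀(N r)` versus `X₀(N)`
-/

set_option autoImplicit false

noncomputable section

open ModularCurve

namespace Fermat.Agent.NodeCount

variable {N r : ℕ}

theorem cuspCount_mul_prime (hN : N ≠ 0) (hr : r.Prime) (h : ¬ r ∣ N) :
    cuspCount (N * r) = 2 * cuspCount N := by
  have hc : N.Coprime r := ((Nat.Prime.coprime_iff_not_dvd hr).mpr h).symm
  have h0 : ∑ d ∈ (N * r).divisors, Nat.totient (Nat.gcd d (N * r / d)) =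
      ∑ d ∈ N.divisors, ∑ e ∈ r.divisors, Nat.totient (Nat.gcd (d * e) (N * r / (d * e))) := by
    rw [Nat.divisors_mul, Finset.mul_def, Finset.sum_image hc.mul_injOn_divisors,
      Finset.sum_product]
  rw [cuspCount, h0, cuspCount, Finset.mul_sum]
  refine Finset.sum_congr rfl fun d hd => ?_
  have hd' : d ∣ N := Nat.dvd_of_mem_divisors hd
  have hd0 : 0 < d := Nat.pos_of_mem_divisors hd
  obtain ⟨e, rfl⟩ := hd'
  have he0 : 0 < e := Nat.pos_of_ne_zero (by rintro rfl; simp at hN)
  rw [hr.divisors, Finset.sum_pair hr.one_lt.ne]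
  have hdr : d.Coprime r := Nat.Coprime.coprime_mul_right hc
  have her : e.Coprime r := Nat.Coprime.coprime_mul_left hc
  have e1 : d * e * r / (d * 1) = e * r := by
    rw [mul_one, mul_assoc, Nat.mul_div_cancel_left _ hd0]
  have e2 : d * e * r / (d * r) = e := by
    have : d * e * r = (d * r) * e := by ring
    rw [this, Nat.mul_div_cancel_left _ (Nat.mul_pos hd0 hr.pos)]
  have e3 : d * e / d = e := Nat.mul_div_cancel_left _ hd0
  rw [e1, e2, e3, mul_one, Nat.Coprime.gcd_mul_right_cancel_right _ hdr.symm,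
    Nat.Coprime.gcd_mul_right_cancel _ her.symm, two_mul]

/-- solutions of a polynomial-type equation modulo `m n` -/
theorem card_solutions_mul {m n : ℕ} (h : m.Coprime n) (f : ∀ (R : Type) [CommRing R], R → R)
    (hf : ∀ (R S : Type) [CommRing R] [CommRing S] (φ : R →+* S) (x : R), φ (f R x) = f S (φ x)) :
    Nat.card {x : ZMod (m * n) // f _ x = 0} =
      Nat.card {x : ZMod m // f _ x = 0} * Nat.card {x : ZMod n // f _ x = 0} := by
  rw [← Nat.card_prod]
  let e := ZMod.chineseRemainder h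
  refine Nat.card_congr ⟨fun x => (⟨(e x.1).1, ?_⟩, ⟨(e x.1).2, ?_⟩),
    fun y => ⟨e.symm (y.1.1, y.2.1), ?_⟩, ?_, ?_⟩
  · have h1 := hf _ _ ((RingHom.fst _ _).comp e.toRingHom) x.1
    rw [x.2, map_zero] at h1
    exact h1.symm
  · have h1 := hf _ _ ((RingHom.snd _ _).comp e.toRingHom) x.1
    rw [x.2, map_zero] at h1
    exact h1.symm
  · have h1 := hf _ _ e.symm.toRingHom (y.1.1, y.2.1)
    have h2 : f (ZMod m × ZMod n) (y.1.1, y.2.1) = 0 := by
      refine Prod.ext ?_ ?_
      · have := hf _ _ (RingHom.fst (ZMod m) (ZMod n)) (y.1.1, y.2.1)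
        exact this.trans y.1.2
      · have := hf _ _ (RingHom.snd (ZMod m) (ZMod n)) (y.1.1, y.2.1)
        exact this.trans y.2.2
    rw [h2, map_zero] at h1
    exact h1.symm
  · rintro ⟨x, hx⟩
    simp
  · rintro ⟨⟨x, hx⟩, ⟨y, hy⟩⟩
    simp

theorem nuTwo_mul {m n : ℕ} (h : m.Coprime n) : nuTwo (m * n) = nuTwo m * nuTwo n := by
  rw [nuTwo, nuTwo, nuTwo]
  exact card_solutions_mul h (fun R _ x => x ^ 2 + 1) (fun R S _ _ φ x => by simp)

theorem nuThree_mul {m n : ℕ} (h : m.Coprime n) : nuThree (m * n) = nuThree m * nuThree n := by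
  rw [nuThree, nuThree, nuThree]
  exact card_solutions_mul h (fun R _ x => x ^ 2 + x + 1) (fun R S _ _ φ x => by simp)

/-- number of roots of `x ^ 2 + 1` modulo a prime `1 mod 4` -/
theorem nuTwo_prime_one (hr : r.Prime) (h : r % 4 = 1) : nuTwo r = 2 := by
  have := Fact.mk hr
  have hr2 : r ≠ 2 := by rintro rfl; simp at h
  obtain ⟨i, hi⟩ : IsSquare (-1 : ZMod r) := ZMod.exists_sq_eq_neg_one_iff.mpr (by omega)
  have hi0 : i ≠ 0 := by rintro rfl; simp at hi
  have h2 : (2 : ZMod r) ≠ 0 := by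
    intro h0
    have : ((2 : ℕ) : ZMod r) = 0 := by exact_mod_cast h0
    rw [ZMod.natCast_eq_zero_iff] at this
    exact hr2 ((Nat.prime_dvd_prime_iff_eq hr Nat.prime_two).mp this)
  have hne : i ≠ -i := by
    intro h0
    have : 2 * i = 0 := by linear_combination h0
    exact (mul_ne_zero h2 hi0) this
  have hset : {x : ZMod r | x ^ 2 + 1 = 0} = {i, -i} := by
    ext x
    simp only [Set.mem_ofPred_eq, Set.mem_insert_iff, Set.mem_singleton_iff]
    constructor
    · intro hx
      have : (x - i) * (x + i) = 0 := by linear_combination hx + hi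
      rcases mul_eq_zero.mp this with h1 | h1
      · left; linear_combination h1
      · right; linear_combination h1
    · rintro (rfl | rfl)
      · linear_combination -hi
      · linear_combination -hi
  have : nuTwo r = Nat.card ({i, -i} : Set (ZMod r)) := by
    rw [nuTwo, ← hset]; rfl
  rw [this, Nat.card_coe_set_eq, Set.ncard_pair hne]

theorem nuTwo_prime_three (hr : r.Prime) (h : r % 4 = 3) : nuTwo r = 0 := by
  have := Fact.mk hr
  rw [nuTwo, Nat.card_eq_zero]
  left
  rw [isEmpty_subtype]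
  intro x hx
  have : IsSquare (-1 : ZMod r) := ⟨x, by linear_combination -hx⟩
  rw [ZMod.exists_sq_eq_neg_one_iff] at this
  exact this h

theorem nuTwo_two : nuTwo 2 = 1 := by
  rw [nuTwo, Nat.card_eq_fintype_card]; decide +kernel

theorem nuThree_two : nuThree 2 = 0 := by
  rw [nuThree, Nat.card_eq_fintype_card]; decide +kernel

theorem nuTwo_four' : nuTwo 4 = 0 := by
  rw [nuTwo, Nat.card_eq_fintype_card]; decide +kernel

/-- if `d ∣ N` and the equation has no solution modulo `d`, it has none modulo `N` -/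
theorem nuTwo_eq_zero_of_dvd {d : ℕ} (hd : d ∣ N) (h : nuTwo d = 0) (h0 : d ≠ 0) : nuTwo N = 0 := by
  have := NeZero.mk h0
  rw [nuTwo, Nat.card_eq_zero] at h ⊢
  left
  rcases h with h | h
  · rw [isEmpty_subtype] at h ⊢
    intro x hx
    apply h (ZMod.castHom hd (ZMod d) x)
    have := congrArg (ZMod.castHom hd (ZMod d)) hx
    simpa only [map_add, map_pow, map_one, map_zero] using this
  · exact absurd h (not_infinite_iff_finite.mpr inferInstance)

theorem nuThree_eq_zero_of_dvd {d : ℕ} (hd : d ∣ N) (h : nuThree d = 0) (h0 : d ≠ 0) :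
    nuThree N = 0 := by
  have := NeZero.mk h0
  rw [nuThree, Nat.card_eq_zero] at h ⊢
  left
  rcases h with h | h
  · rw [isEmpty_subtype] at h ⊢
    intro x hx
    apply h (ZMod.castHom hd (ZMod d) x)
    have := congrArg (ZMod.castHom hd (ZMod d)) hx
    simpa only [map_add, map_pow, map_one, map_zero] using this
  · exact absurd h (not_infinite_iff_finite.mpr inferInstance)

theorem nuThree_even (h : 2 ∣ N) : nuThree N = 0 := nuThree_eq_zero_of_dvd h nuThree_two two_ne_zero

theorem nuTwo_of_four_dvd (h : 4 ∣ N) : nuTwo N = 0 :=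
  nuTwo_eq_zero_of_dvd h nuTwo_four' four_ne_zero

/-- **General numerics.** -/
theorem genusFormula_mul_prime (hN : N ≠ 0) (hr : r.Prime) (h : ¬ r ∣ N) :
    12 * (genusFormula (N * r) + 1 - 2 * genusFormula N) =
      ((r : ℚ) - 1) * dedekindPsi N - 3 * (nuTwo (N * r) - 2 * nuTwo N)
        - 4 * (nuThree (N * r) - 2 * nuThree N) := by
  rw [genusFormula, genusFormula, cuspCount_mul_prime hN hr h, ModDeg.psi_mul_prime_of_not_dvd hr h]
  push_cast
  ring

/-- no contribution of elliptic points -/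
def NoEll (N r : ℕ) : Prop := nuTwo (N * r) = 2 * nuTwo N ∧ nuThree (N * r) = 2 * nuThree N

theorem noEll_of_four_dvd (h : 4 ∣ N) : NoEll N r := by
  refine ⟨?_, ?_⟩
  · rw [nuTwo_of_four_dvd h, nuTwo_of_four_dvd (h.mul_right r)]
  · rw [nuThree_even (dvd_trans (by norm_num) h),
      nuThree_even ((dvd_trans (by norm_num : 2 ∣ 4) h).mul_right r)]

theorem noEll_of_even_of_one_mod_four (hr : r.Prime) (h : ¬ r ∣ N) (h2 : 2 ∣ N) (h4 : r % 4 = 1) :
    NoEll N r := by
  have hc : N.Coprime r := ((Nat.Prime.coprime_iff_not_dvd hr).mpr h).symm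
  refine ⟨?_, ?_⟩
  · rw [nuTwo_mul hc, nuTwo_prime_one hr h4, mul_comm]
  · rw [nuThree_even h2, nuThree_even (h2.mul_right r)]

theorem genusFormula_of_noEll (hN : N ≠ 0) (hr : r.Prime) (h : ¬ r ∣ N) (hE : NoEll N r) :
    12 * (genusFormula (N * r) + 1 - 2 * genusFormula N) = ((r : ℚ) - 1) * dedekindPsi N := by
  rw [genusFormula_mul_prime hN hr h, hE.1, hE.2]
  push_cast
  ring

/-- in terms of integers equal to the genera -/
theorem twelve_mul_nodes {g g₁ : ℤ} (hN : N ≠ 0) (hr : r.Prime) (h : ¬ r ∣ N) (hE : NoEll N r)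
    (hg : (g : ℚ) = genusFormula (N * r)) (hg₁ : (g₁ : ℚ) = genusFormula N) :
    12 * (g + 1 - 2 * g₁) = (r - 1) * dedekindPsi N := by
  have := genusFormula_of_noEll hN hr h hE
  rw [← hg, ← hg₁] at this
  exact_mod_cast this

end Fermat.Agent.NodeCount
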